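import Mathlib

set_option autoImplicit false

namespace Fermat.Agent.S57

open RingTheory.Sequence IsLocalRing Module CategoryTheory Abelian
open scoped Pointwise

/-- zero is below the support dimension of a nontrivial module -/
theorem zero_le_supportDim {P : Type} [CommRing P] (N : Type) [AddCommGroup N] [Module P N]
    [Nontrivial N] : (0 : WithBot ℕ∞) ≤ Module.supportDim P N := by
  have h := (Module.supportDim_ne_bot_iff_nontrivial P N).2 inferInstance
  rcases hx : Module.supportDim P N with _ | x
  · exact absurd hx h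
  · exact WithBot.coe_le_coe.2 bot_le

theorem mem_span_singleton_pow_smul_top {P : Type} [CommRing P] {N : Type} [AddCommGroup N]
    [Module P N] (y : P) (k : ℕ) (x : N) :
    x ∈ (Ideal.span {y}) ^ k • (⊤ : Submodule P N) ↔ ∃ z : N, y ^ k • z = x := by
  rw [Ideal.span_singleton_pow, Submodule.ideal_span_singleton_smul,
    Submodule.mem_smul_pointwise_iff_exists]
  simp

/-- Lemma D : in a module with a weakly regular sequence of length `n` inside the maximal ideal,
every nonzero submodule has support dimension at least `n`. -/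
theorem length_le_supportDim_submodule
    {P : Type} [CommRing P] [IsLocalRing P] [IsNoetherianRing P] (ys : List P) :
    ∀ (N : Type) [AddCommGroup N] [Module P N] [Module.Finite P N],
    (∀ y ∈ ys, y ∈ maximalIdeal P) → IsWeaklyRegular N ys →
    ∀ K : Submodule P N, K ≠ ⊥ → (ys.length : WithBot ℕ∞) ≤ Module.supportDim P K := by
  induction ys with
  | nil =>
    intro N _ _ _ _ _ K hK
    have : Nontrivial K := (Submodule.nontrivial_iff_ne_bot).2 hK
    simpa using zero_le_supportDim (P := P) K
  | cons y ys ih =>
    intro N _ _ _ hmem hreg K hK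
    have hy : y ∈ maximalIdeal P := hmem y (List.mem_cons_self)
    have hys : ∀ z ∈ ys, z ∈ maximalIdeal P := fun z hz => hmem z (List.mem_cons_of_mem _ hz)
    rw [isWeaklyRegular_cons_iff] at hreg
    obtain ⟨hy_reg, hys_reg⟩ := hreg
    -- Krull intersection
    have hne : Ideal.span {y} ≠ ⊤ := by
      intro h
      have : (1 : P) ∈ Ideal.span {y} := by rw [h]; trivial
      have h1 : Ideal.span {y} ≤ maximalIdeal P := by
        rw [Ideal.span_le]; simpa using hy
      exact (maximalIdeal P).ne_top_iff_one.1 (Ideal.IsMaximal.ne_top inferInstance) (h1 this)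
    have hki := Ideal.iInf_pow_smul_eq_bot_of_isLocalRing (M := N) (Ideal.span {y}) hne
    have hex : ∃ k : ℕ, ¬ K ≤ (Ideal.span {y}) ^ k • (⊤ : Submodule P N) := by
      by_contra hcon
      push Not at hcon
      apply hK
      rw [eq_bot_iff, ← hki]
      exact le_iInf hcon
    classical
    let k := Nat.find hex
    have hk : ¬ K ≤ (Ideal.span {y}) ^ k • (⊤ : Submodule P N) := Nat.find_spec hex
    have hk0 : k ≠ 0 := by
      intro h0
      apply hk
      rw [h0, pow_zero, Ideal.one_eq_top, Submodule.top_smul]
      exact le_top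
    obtain ⟨j, hj⟩ := Nat.exists_eq_succ_of_ne_zero hk0
    have hjK : K ≤ (Ideal.span {y}) ^ j • (⊤ : Submodule P N) := by
      by_contra hcon
      exact Nat.find_min hex (by omega : j < k) hcon
    rw [hj] at hk
    -- the submodule K₀
    let f : N →ₗ[P] N := LinearMap.lsmul P N (y ^ j)
    have hf : ∀ z, f z = y ^ j • z := fun z => rfl
    have hfinj : Function.Injective f := by
      intro a b hab
      exact (hy_reg.pow j) hab
    let K₀ : Submodule P N := K.comap f
    have hK₀ : ¬ K₀ ≤ y • (⊤ : Submodule P N) := by
      intro hle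
      apply hk
      intro w hw
      obtain ⟨z, hz⟩ := (mem_span_singleton_pow_smul_top y j w).1 (hjK hw)
      have hzK₀ : z ∈ K₀ := by
        show f z ∈ K
        rw [hf, hz]; exact hw
      obtain ⟨z', -, hz'⟩ := (Submodule.mem_smul_pointwise_iff_exists _ _ _).1 (hle hzK₀)
      refine (mem_span_singleton_pow_smul_top y (j + 1) w).2 ⟨z', ?_⟩
      rw [pow_succ, mul_smul, hz', hz]
    -- image in the quotient
    let q : N →ₗ[P] QuotSMulTop y N := Submodule.mkQ (y • (⊤ : Submodule P N))
    let K'' : Submodule P (QuotSMulTop y N) := K₀.map q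
    have hK'' : K'' ≠ ⊥ := by
      intro h
      apply hK₀
      intro z hz
      have : q z ∈ K'' := Submodule.mem_map_of_mem hz
      rw [h, Submodule.mem_bot] at this
      simpa [q] using this
    have hIH := ih (QuotSMulTop y N) hys hys_reg K'' hK''
    -- surjection from QuotSMulTop y K₀ onto K''
    let h : K₀ →ₗ[P] K'' := (q.comp K₀.subtype).codRestrict K''
      (fun z => Submodule.mem_map_of_mem z.2)
    have hsurj : Function.Surjective h := by
      rintro ⟨w, hw⟩
      obtain ⟨z, hz, rfl⟩ := hw
      exact ⟨⟨z, hz⟩, rfl⟩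
    have hker : y • (⊤ : Submodule P K₀) ≤ LinearMap.ker h := by
      intro z hz
      obtain ⟨z', -, rfl⟩ := (Submodule.mem_smul_pointwise_iff_exists _ _ _).1 hz
      rw [LinearMap.mem_ker]
      apply Subtype.ext
      show q ((y • z' : K₀) : N) = 0
      simp only [q, Submodule.mkQ_apply, Submodule.Quotient.mk_eq_zero, Submodule.coe_smul]
      exact Submodule.smul_mem_pointwise_smul _ _ _ Submodule.mem_top
    let g : QuotSMulTop y K₀ →ₗ[P] K'' := Submodule.liftQ _ h hker
    have hgsurj : Function.Surjective g := by
      intro w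
      obtain ⟨z, rfl⟩ := hsurj w
      exact ⟨Submodule.Quotient.mk z, rfl⟩
    have h1 : Module.supportDim P K'' ≤ Module.supportDim P (QuotSMulTop y K₀) :=
      Module.supportDim_le_of_surjective g hgsurj
    have hregK₀ : IsSMulRegular K₀ y := by
      intro a b hab
      apply Subtype.ext
      apply hy_reg
      have := congrArg Subtype.val hab
      simpa using this
    have h2 : Module.supportDim P (QuotSMulTop y K₀) + 1 = Module.supportDim P K₀ :=
      Module.supportDim_quotSMulTop_succ_eq_supportDim_mem_jacobson hregK₀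
        (IsLocalRing.maximalIdeal_le_jacobson _ hy)
    let e : K₀ →ₗ[P] K := (f.comp K₀.subtype).codRestrict K (fun z => z.2)
    have heinj : Function.Injective e := by
      intro a b hab
      apply Subtype.ext
      apply hfinj
      exact congrArg Subtype.val hab
    have h3 : Module.supportDim P K₀ ≤ Module.supportDim P K :=
      Module.supportDim_le_of_injective e heinj
    calc ((y :: ys).length : WithBot ℕ∞) = (ys.length : WithBot ℕ∞) + 1 := by
          simp
      _ ≤ Module.supportDim P K'' + 1 := by gcongr
      _ ≤ Module.supportDim P (QuotSMulTop y K₀) + 1 := by gcongr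
      _ = Module.supportDim P K₀ := h2
      _ ≤ Module.supportDim P K := h3

theorem nontrivial_quot_span_singleton {P : Type} [CommRing P] [IsLocalRing P] {x : P}
    (hx : x ∈ maximalIdeal P) : Nontrivial (P ⧸ Ideal.span {x}) := by
  apply Ideal.Quotient.nontrivial_iff.2
  intro h
  have h1 : Ideal.span {x} ≤ maximalIdeal P := by
    rw [Ideal.span_le]; simpa using hx
  exact (Ideal.IsMaximal.ne_top (inferInstance : (maximalIdeal P).IsMaximal))
    (top_le_iff.1 (h ▸ h1))

/-- Lemma Q -/
theorem maximalIdeal_quot_eq_ofList {P : Type} [CommRing P] [IsLocalRing P] (x : P) (xs : List P)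
    (hm : Ideal.ofList (x :: xs) = maximalIdeal P) [IsLocalRing (P ⧸ Ideal.span {x})] :
    maximalIdeal (P ⧸ Ideal.span {x}) =
      Ideal.ofList (xs.map (Ideal.Quotient.mk (Ideal.span {x}))) := by
  rw [← IsLocalRing.map_maximalIdeal_of_surjective (Ideal.Quotient.mk (Ideal.span {x}))
    Ideal.Quotient.mk_surjective, ← hm, Ideal.ofList_cons, Ideal.map_sup, Ideal.map_quotient_self,
    bot_sup_eq, Ideal.ofList, Ideal.ofList, Ideal.map_span]
  congr 1
  ext z
  simp

theorem ringKrullDim_le_length_of_ofList_eq {P : Type} [CommRing P] [IsLocalRing P]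
    [IsNoetherianRing P] (xs : List P) (hm : Ideal.ofList xs = maximalIdeal P) :
    ringKrullDim P ≤ (xs.length : WithBot ℕ∞) := by
  refine (ringKrullDim_le_spanFinrank_maximalIdeal P).trans ?_
  rw [← hm, Ideal.ofList]
  have hfin : {r | r ∈ xs}.Finite := List.finite_toSet xs
  have h1 := Submodule.spanFinrank_span_le_ncard_of_finite (R := P) hfin
  have h2 : {r | r ∈ xs}.ncard ≤ xs.length := by
    classical
    have : {r | r ∈ xs} = (xs.toFinset : Set P) := by ext; simp
    rw [this, Set.ncard_coe_finset]
    exact List.toFinset_card_le xs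
  exact_mod_cast h1.trans h2

/-- Lemma A -/
theorem isSMulRegular_of_depth {P : Type} [CommRing P] [IsLocalRing P] [IsNoetherianRing P]
    (x : P) (xs : List P) (hm : Ideal.ofList (x :: xs) = maximalIdeal P)
    (N : Type) [AddCommGroup N] [Module P N] [Module.Finite P N]
    (ys : List P) (hlen : ys.length = xs.length + 1)
    (hmem : ∀ y ∈ ys, y ∈ maximalIdeal P) (hreg : IsWeaklyRegular N ys) :
    IsSMulRegular N x := by
  have hx : x ∈ maximalIdeal P := by
    rw [← hm]; exact Ideal.subset_span (by simp)
  have hnt := nontrivial_quot_span_singleton hx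
  have hloc : IsLocalRing (P ⧸ Ideal.span {x}) :=
    IsLocalRing.of_surjective' (Ideal.Quotient.mk (Ideal.span {x})) Ideal.Quotient.mk_surjective
  let K : Submodule P N := LinearMap.ker (LinearMap.lsmul P N x)
  by_contra hcon
  have hK : K ≠ ⊥ := by
    intro h
    apply hcon
    have : Function.Injective (LinearMap.lsmul P N x) := LinearMap.ker_eq_bot.1 h
    exact this
  have hD := length_le_supportDim_submodule ys N hmem hreg K hK
  have hann : Ideal.span {x} ≤ Module.annihilator P K := by
    rw [Ideal.span_le]
    intro z hz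
    rw [Set.mem_singleton_iff] at hz
    subst hz
    rw [SetLike.mem_coe, Module.mem_annihilator]
    rintro ⟨w, hw⟩
    apply Subtype.ext
    exact hw
  have h1 : Module.supportDim P K ≤ ringKrullDim (P ⧸ Ideal.span {x}) := by
    rw [Module.supportDim_eq_ringKrullDim_quotient_annihilator]
    exact ringKrullDim_le_of_surjective (Ideal.Quotient.factor hann)
      (Ideal.Quotient.factor_surjective hann)
  have h2 : ringKrullDim (P ⧸ Ideal.span {x}) ≤ (xs.length : WithBot ℕ∞) := by
    have := ringKrullDim_le_length_of_ofList_eq _ (maximalIdeal_quot_eq_ofList x xs hm).symm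
    simpa using this
  have h3 := hD.trans (h1.trans h2)
  rw [hlen] at h3
  have h4 : ((xs.length + 1 : ℕ) : ℕ∞) ≤ (xs.length : ℕ∞) := by
    exact_mod_cast h3
  have h5 : xs.length + 1 ≤ xs.length := by exact_mod_cast h4
  omega

theorem maximalIdeal_smul_top_lt_top {P : Type} [CommRing P] [IsLocalRing P]
    (N : Type) [AddCommGroup N] [Module P N] [Module.Finite P N] [Nontrivial N] :
    (maximalIdeal P) • (⊤ : Submodule P N) < ⊤ := by
  rw [lt_top_iff_ne_top]
  intro h
  have := Submodule.eq_bot_of_le_smul_of_le_jacobson_bot (maximalIdeal P) (⊤ : Submodule P N)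
    Module.Finite.fg_top (le_of_eq h.symm) (IsLocalRing.maximalIdeal_le_jacobson _)
  exact top_ne_bot this

theorem support_residue_eq {P : Type} [CommRing P] [IsLocalRing P] :
    Module.support P (P ⧸ maximalIdeal P) = PrimeSpectrum.zeroLocus (maximalIdeal P : Set P) := by
  rw [Module.support_eq_zeroLocus, Ideal.annihilator_quotient]

/-- Lemma B -/
theorem exists_isWeaklyRegular_quotSMulTop {P : Type} [CommRing P] [IsLocalRing P]
    [IsNoetherianRing P]
    (N : Type) [AddCommGroup N] [Module P N] [Module.Finite P N] [Nontrivial N]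
    (x : P) (hx : x ∈ maximalIdeal P) (hxreg : IsSMulRegular N x)
    (ys : List P) (n : ℕ) (hlen : ys.length = n + 1)
    (hmem : ∀ y ∈ ys, y ∈ maximalIdeal P) (hreg : IsWeaklyRegular N ys) :
    ∃ rs : List P, rs.length = n ∧ (∀ r ∈ rs, r ∈ maximalIdeal P) ∧
      IsWeaklyRegular (QuotSMulTop x N) rs := by
  have hreg' : RingTheory.Sequence.IsRegular N ys :=
    IsRegular.of_isWeaklyRegular_of_mem_maximalIdeal N hmem hreg
  let k : ModuleCat.{0} P := ModuleCat.of P (P ⧸ maximalIdeal P)
  let M : ModuleCat.{0} P := ModuleCat.of P N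
  have hfinM : Module.Finite P M := inferInstanceAs (Module.Finite P N)
  have hfink : Module.Finite P k := inferInstanceAs (Module.Finite P (P ⧸ maximalIdeal P))
  have hsupp : Module.support P k = PrimeSpectrum.zeroLocus (maximalIdeal P : Set P) :=
    support_residue_eq
  have h_ext : ∀ i < ys.length, Subsingleton (Ext k M i) :=
    ModuleCat.subsingleton_ext_of_exists_isRegular (maximalIdeal P) k hsupp.subset M
      (maximalIdeal_smul_top_lt_top N) ys hmem hreg'
  have hxreg' : IsSMulRegular M x := hxreg
  have hnt : Nontrivial (QuotSMulTop x N) := nontrivial_quotSMulTop_of_mem_maximalIdeal N hx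
  have h_ext' : ∀ i < n, Subsingleton (Ext k (ModuleCat.of P (QuotSMulTop x M)) i) := by
    intro i hi
    have zero1 := AddCommGrpCat.isZero_of_iff_subsingleton.mpr (h_ext i (by omega))
    have zero2 := AddCommGrpCat.isZero_of_iff_subsingleton.mpr (h_ext (i + 1) (by omega))
    exact AddCommGrpCat.subsingleton_of_isZero <| ShortComplex.Exact.isZero_of_both_zeros
      ((Ext.covariant_sequence_exact₃' k hxreg'.smulShortComplex_shortExact) i (i + 1) rfl)
      (zero1.eq_zero_of_src _) (zero2.eq_zero_of_tgt _)
  have hfinQ : Module.Finite P (ModuleCat.of P (QuotSMulTop x M)) :=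
    inferInstanceAs (Module.Finite P (QuotSMulTop x N))
  obtain ⟨rs, hrs_len, hrs_mem, hrs_reg⟩ :=
    ModuleCat.exists_isRegular_of_exists_subsingleton_ext (maximalIdeal P) n
      (ModuleCat.of P (QuotSMulTop x M)) (maximalIdeal_smul_top_lt_top (QuotSMulTop x N))
      k hsupp h_ext'
  exact ⟨rs, hrs_len, hrs_mem, hrs_reg.toIsWeaklyRegular⟩

/-- Theorem T: a finite module of depth `n` over a Noetherian local ring whose maximal ideal is
generated by `n` elements is free. -/
theorem free_of_depth (n : ℕ) :
    ∀ (P : Type) [CommRing P] [IsLocalRing P] [IsNoetherianRing P] (xs : List P),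
      xs.length = n → Ideal.ofList xs = maximalIdeal P →
      ∀ (N : Type) [AddCommGroup N] [Module P N] [Module.Finite P N] (ys : List P),
        ys.length = n → (∀ y ∈ ys, y ∈ maximalIdeal P) → IsWeaklyRegular N ys →
        Module.Free P N := by
  induction n with
  | zero =>
    intro P _ _ _ xs hxs hm N _ _ _ ys _ _ _
    have hnil : xs = [] := List.length_eq_zero_iff.1 hxs
    subst hnil
    rw [Ideal.ofList_nil] at hm
    have hfield : IsField P := IsLocalRing.isField_iff_maximalIdeal_eq.2 hm.symm
    let _ : Field P := hfield.toField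
    exact Module.Free.of_divisionRing P N
  | succ n ih =>
    intro P _ _ _ xs hxs hm N _ _ _ ys hys hmem hreg
    rcases subsingleton_or_nontrivial N with hsub | hnt
    · exact Module.Free.of_subsingleton P N
    obtain ⟨x, xs', rfl⟩ : ∃ x xs', xs = x :: xs' := by
      cases xs with
      | nil => simp at hxs
      | cons x xs' => exact ⟨x, xs', rfl⟩
    have hxs' : xs'.length = n := by simpa using hxs
    have hx : x ∈ maximalIdeal P := by
      rw [← hm]; exact Ideal.subset_span (by simp)
    have hxreg : IsSMulRegular N x :=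
      isSMulRegular_of_depth x xs' hm N ys (by rw [hys, hxs']) hmem hreg
    obtain ⟨rs, hrs_len, hrs_mem, hrs_reg⟩ :=
      exists_isWeaklyRegular_quotSMulTop N x hx hxreg ys n hys hmem hreg
    have hntQ := nontrivial_quot_span_singleton hx
    have hloc : IsLocalRing (P ⧸ Ideal.span {x}) :=
      IsLocalRing.of_surjective' (Ideal.Quotient.mk (Ideal.span {x})) Ideal.Quotient.mk_surjective
    have hfin : Module.Finite (P ⧸ Ideal.span {x}) (QuotSMulTop x N) :=
      Module.Finite.of_restrictScalars_finite P (P ⧸ Ideal.span {x}) (QuotSMulTop x N)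
    have hfree : Module.Free (P ⧸ Ideal.span {x}) (QuotSMulTop x N) := by
      refine ih (P ⧸ Ideal.span {x}) (xs'.map (Ideal.Quotient.mk (Ideal.span {x})))
        (by simpa using hxs') (maximalIdeal_quot_eq_ofList x xs' hm).symm (QuotSMulTop x N)
        (rs.map (algebraMap P (P ⧸ Ideal.span {x}))) (by simpa using hrs_len) ?_ ?_
      · intro y hy
        obtain ⟨r, hr, rfl⟩ := List.mem_map.1 hy
        rw [← IsLocalRing.map_maximalIdeal_of_surjective (Ideal.Quotient.mk (Ideal.span {x}))
          Ideal.Quotient.mk_surjective]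
        exact Ideal.mem_map_of_mem _ (hrs_mem r hr)
      · exact (isWeaklyRegular_map_algebraMap_iff (P ⧸ Ideal.span {x}) (QuotSMulTop x N) rs).2
          hrs_reg
    have hfp : Module.FinitePresentation P N := Module.finitePresentation_of_finite P N
    exact (Module.free_quotSMulTop_iff_free P N (IsLocalRing.maximalIdeal_le_jacobson ⊥ hx)
      hxreg).1 hfree

end Fermat.Agent.S57
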