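import Mathlib

set_option autoImplicit false

namespace Fermat.Agent.S57

open RingTheory.Sequence IsLocalRing Module
open scoped Pointwise

/-- the maximal ideal is generated by a weakly regular sequence of length `n` -/
def HasRegularGens (P : Type) [CommRing P] [IsLocalRing P] (n : ℕ) : Prop :=
  ∃ xs : List P, xs.length = n ∧ Ideal.ofList xs = maximalIdeal P ∧ IsWeaklyRegular P xs

theorem hasRegularGens_of_dvr (𝒪 : Type) [CommRing 𝒪] [IsDomain 𝒪] [IsDiscreteValuationRing 𝒪] :
    HasRegularGens 𝒪 1 := by
  obtain ⟨ϖ, hϖ⟩ := IsDiscreteValuationRing.exists_irreducible 𝒪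
  refine ⟨[ϖ], rfl, ?_, ?_⟩
  · rw [Ideal.ofList_singleton, hϖ.maximalIdeal_eq]
  · rw [isWeaklyRegular_singleton_iff]
    intro a b hab
    exact mul_left_cancel₀ hϖ.ne_zero hab

theorem hasRegularGens_of_ringEquiv {P P' : Type} [CommRing P] [IsLocalRing P] [CommRing P']
    [IsLocalRing P'] (e : P ≃+* P') {n : ℕ} (h : HasRegularGens P n) : HasRegularGens P' n := by
  obtain ⟨xs, hlen, hm, hreg⟩ := h
  refine ⟨xs.map e, by simpa using hlen, ?_, ?_⟩
  · rw [← IsLocalRing.map_ringEquiv_maximalIdeal e, ← hm, Ideal.ofList, Ideal.ofList,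
      Ideal.map_span]
    congr 1
    ext z
    simp
  · refine (AddEquiv.isWeaklyRegular_congr (e := e.toAddEquiv) (as := xs) (bs := xs.map e) ?_).1
      hreg
    rw [List.forall₂_map_right_iff]
    exact List.forall₂_same.2 fun r _ x => by simp

theorem hasRegularGens_powerSeries {R : Type} [CommRing R] [IsLocalRing R] {n : ℕ}
    (h : HasRegularGens R n) : HasRegularGens (PowerSeries R) (n + 1) := by
  obtain ⟨xs, hlen, hm, hreg⟩ := h
  refine ⟨PowerSeries.X :: xs.map (PowerSeries.C (R := R)), by simpa using hlen, ?_, ?_⟩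
  · have hX : (PowerSeries.X : PowerSeries R) ∈ maximalIdeal (PowerSeries R) := by
      rw [IsLocalRing.mem_maximalIdeal, mem_nonunits_iff, PowerSeries.isUnit_iff_constantCoeff]
      simp
    have hmap : Ideal.span {r | r ∈ xs} =
        Ideal.map PowerSeries.constantCoeff (maximalIdeal (PowerSeries R)) := by
      rw [IsLocalRing.map_maximalIdeal_of_surjective _ PowerSeries.constantCoeff_surj]
      exact hm
    rw [PowerSeries.eq_span_insert_X_of_X_mem_of_span_eq hX hmap, Ideal.ofList]
    congr 1
    ext z
    simp [eq_comm]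
  · rw [isWeaklyRegular_cons_iff]
    constructor
    · intro a b hab
      exact PowerSeries.X_mul_cancel hab
    · have hker : ((PowerSeries.X : PowerSeries R) • (⊤ : Submodule (PowerSeries R) (PowerSeries R)) :
          Ideal (PowerSeries R)) = RingHom.ker (PowerSeries.constantCoeff (R := R)) := by
        ext f
        rw [Submodule.mem_smul_pointwise_iff_exists, RingHom.mem_ker, ← PowerSeries.X_dvd_iff]
        constructor
        · rintro ⟨g, -, rfl⟩
          exact ⟨g, rfl⟩
        · rintro ⟨g, rfl⟩
          exact ⟨g, Submodule.mem_top, rfl⟩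
      let e : QuotSMulTop (PowerSeries.X : PowerSeries R) (PowerSeries R) ≃+* R :=
        (Ideal.quotEquivOfEq hker).trans
          (RingHom.quotientKerEquivOfSurjective PowerSeries.constantCoeff_surj)
      have he : ∀ f : PowerSeries R, e (Submodule.Quotient.mk f) = PowerSeries.constantCoeff f :=
        fun f => rfl
      refine (AddEquiv.isWeaklyRegular_congr (e := e.toAddEquiv)
        (as := xs.map (PowerSeries.C (R := R))) (bs := xs) ?_).2 hreg
      rw [List.forall₂_map_left_iff]
      refine List.forall₂_same.2 fun r _ z => ?_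
      obtain ⟨f, rfl⟩ := Submodule.Quotient.mk_surjective _ z
      show e (Submodule.Quotient.mk (PowerSeries.C r • f)) = r • e (Submodule.Quotient.mk f)
      rw [he, he]
      simp

theorem hasRegularGens_mvPowerSeries {R : Type} [CommRing R] [IsLocalRing R] {n : ℕ}
    (h : HasRegularGens R n) (r : ℕ) : HasRegularGens (MvPowerSeries (Fin r) R) (n + r) := by
  induction r with
  | zero =>
    exact hasRegularGens_of_ringEquiv (MvPowerSeries.isEmptyEquiv (Fin 0) R).symm.toRingEquiv h
  | succ r ih =>
    exact hasRegularGens_of_ringEquiv (MvPowerSeries.finSuccEquiv R r).symm.toRingEquiv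
      (hasRegularGens_powerSeries ih)

end Fermat.Agent.S57
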