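import Fermat.Prelude.Def_Algebra_PatchingDatum
import Fermat.Agent.S57.Depth
import Fermat.Agent.S57.PowerSeriesGens

set_option autoImplicit false
set_option linter.unusedSectionVars false

namespace Fermat.Agent.S57

open RingTheory.Sequence IsLocalRing Module
open scoped Pointwise

section

variable {𝒪 : Type} [CommRing 𝒪] [IsDomain 𝒪] [IsDiscreteValuationRing 𝒪]
    {r : ℕ} {R : Type} [CommRing R] [Algebra 𝒪 R]
    {M : Type} [AddCommGroup M] [Module R M]
    (L : Algebra.PatchingLevel 𝒪 r R M ⊥)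

/-- the `φ`-semilinear parametrisation of `N` -/
noncomputable def paramHom : (Fin L.d → MvPowerSeries (Fin r) 𝒪) →+ L.N where
  toFun c := ∑ i, L.φ (c i) • L.b i
  map_zero' := by simp
  map_add' c c' := by simp [add_smul, Finset.sum_add_distrib]

theorem paramHom_apply (c : Fin L.d → MvPowerSeries (Fin r) 𝒪) :
    paramHom L c = ∑ i, L.φ (c i) • L.b i := rfl

theorem paramHom_smul (f : MvPowerSeries (Fin r) 𝒪) (c : Fin L.d → MvPowerSeries (Fin r) 𝒪) :
    paramHom L (f • c) = L.φ f • paramHom L c := by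
  simp [paramHom_apply, Finset.smul_sum, mul_smul]

theorem paramHom_bijective : Function.Bijective (paramHom L) := by
  constructor
  · rw [injective_iff_map_eq_zero]
    intro c hc
    have := (L.b_rel c).1 hc
    funext i
    simpa using this i
  · intro x
    obtain ⟨c, hc⟩ := L.b_span x
    exact ⟨c, hc.symm⟩

/-- the parametrisation as an additive equivalence -/
noncomputable def paramEquiv : (Fin L.d → MvPowerSeries (Fin r) 𝒪) ≃+ L.N :=
  AddEquiv.ofBijective (paramHom L) (paramHom_bijective L)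

theorem paramEquiv_smul (f : MvPowerSeries (Fin r) 𝒪) (c : Fin L.d → MvPowerSeries (Fin r) 𝒪) :
    paramEquiv L (f • c) = L.φ f • paramEquiv L c :=
  paramHom_smul L f c

theorem finite_N : Module.Finite (MvPowerSeries (Fin r) 𝒪) L.N := by
  have h : Submodule.span (MvPowerSeries (Fin r) 𝒪) (Set.range L.b) = ⊤ := by
    rw [eq_top_iff]
    intro x _
    obtain ⟨c, rfl⟩ := L.b_span x
    exact Submodule.sum_mem _ fun i _ =>
      Submodule.smul_mem _ _ (Submodule.subset_span ⟨i, rfl⟩)
  exact ⟨h ▸ Submodule.fg_span (Set.finite_range L.b)⟩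

/-- an `𝒪`-algebra endomorphism of the power series ring is local -/
theorem phi_mem_maximalIdeal (φ : MvPowerSeries (Fin r) 𝒪 →ₐ[𝒪] MvPowerSeries (Fin r) 𝒪)
    (x : MvPowerSeries (Fin r) 𝒪) (hx : x ∈ maximalIdeal (MvPowerSeries (Fin r) 𝒪)) :
    φ x ∈ maximalIdeal (MvPowerSeries (Fin r) 𝒪) := by
  let θ : MvPowerSeries (Fin r) 𝒪 →+* ResidueField (MvPowerSeries (Fin r) 𝒪) :=
    (IsLocalRing.residue _).comp φ.toRingHom
  have hsurj : Function.Surjective θ := by
    intro y
    obtain ⟨p, rfl⟩ := IsLocalRing.residue_surjective y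
    refine ⟨MvPowerSeries.C (MvPowerSeries.constantCoeff p), ?_⟩
    have h1 : φ (MvPowerSeries.C (MvPowerSeries.constantCoeff p)) =
        MvPowerSeries.C (MvPowerSeries.constantCoeff p) := by
      have := φ.commutes (MvPowerSeries.constantCoeff p)
      simpa [MvPowerSeries.algebraMap_apply] using this
    show IsLocalRing.residue _ (φ _) = _
    rw [h1, ← sub_eq_zero, ← map_sub, IsLocalRing.residue_eq_zero_iff,
      IsLocalRing.mem_maximalIdeal, mem_nonunits_iff, MvPowerSeries.isUnit_iff_constantCoeff]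
    simp
  have hker := IsLocalRing.ker_eq_maximalIdeal θ hsurj
  have : x ∈ RingHom.ker θ := by rw [hker]; exact hx
  rw [RingHom.mem_ker] at this
  exact (IsLocalRing.residue_eq_zero_iff _).1 this

/-- `N` is free over the power series ring -/
theorem free_N : Module.Free (MvPowerSeries (Fin r) 𝒪) L.N := by
  obtain ⟨xs, hlen, hm, hreg⟩ := hasRegularGens_mvPowerSeries (hasRegularGens_of_dvr 𝒪) r
  have hfin := finite_N L
  have h1 : IsWeaklyRegular (Fin L.d → MvPowerSeries (Fin r) 𝒪) xs := by
    have h := hreg.isWeaklyRegular_lTensor (M₂ := Fin L.d → MvPowerSeries (Fin r) 𝒪)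
    exact (LinearEquiv.isWeaklyRegular_congr
      (TensorProduct.rid (MvPowerSeries (Fin r) 𝒪) (Fin L.d → MvPowerSeries (Fin r) 𝒪)) xs).1 h
  have h2 : IsWeaklyRegular L.N (xs.map L.φ) := by
    refine (AddEquiv.isWeaklyRegular_congr (e := paramEquiv L) (as := xs) (bs := xs.map L.φ) ?_).1
      h1
    rw [List.forall₂_map_right_iff]
    exact List.forall₂_same.2 fun f _ c => paramEquiv_smul L f c
  refine free_of_depth (1 + r) (MvPowerSeries (Fin r) 𝒪) xs hlen hm L.N (xs.map L.φ)
    (by simpa using hlen) ?_ h2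
  intro y hy
  obtain ⟨x, hx, rfl⟩ := List.mem_map.1 hy
  refine phi_mem_maximalIdeal L.φ x ?_
  rw [← hm]
  exact Ideal.subset_span hx

theorem mem_ideal_smul_top_iff_repr {P : Type} [CommRing P] {N : Type} [AddCommGroup N]
    [Module P N] {ι : Type} (β : Module.Basis ι P N) (I : Ideal P) (x : N) :
    x ∈ I • (⊤ : Submodule P N) ↔ ∀ i, β.repr x i ∈ I := by
  rw [← β.span_eq, Submodule.mem_ideal_smul_span_iff_exists_sum]
  constructor
  · rintro ⟨a, ha, rfl⟩ i
    have : β.repr (a.sum fun i c => c • β i) = a := by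
      rw [← Finsupp.linearCombination_apply, β.repr_linearCombination]
    rw [this]
    exact ha i
  · intro h
    refine ⟨β.repr x, h, ?_⟩
    rw [← Finsupp.linearCombination_apply, β.linearCombination_repr]

end

end Fermat.Agent.S57
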